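import Fermat.Agent.TwoAdic.Main
import Fermat.Agent.TwoAdic.NewformRep.Main
import Fermat.Agent.TwoAdic.Congruence.FromRep

/-!
# The two-adic modularity theorem, unconditionally

A semistable curve with negative discriminant, good ordinary reduction at `2` and the local
conditions of `Top.IsTwoAdicGood` is modular.
-/

set_option autoImplicit false

noncomputable section

namespace Fermat.Agent.TwoAdic

/-- The two-adic modularity theorem. -/
theorem twoAdicModularity : Top.TwoAdicModularityInput Top.IsTwoAdicGood :=
  twoAdicModularity_of_inputs (Congruence.congruenceInput_of_newformRep newformRepInputTwo)

end Fermat.Agent.TwoAdic
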