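import Fermat.Agent.TwoAdic.Galois.Remaining
import Fermat.Agent.TwoAdic.Galois.ResidualLevel
import Fermat.Agent.TwoAdic.Galois.Limit
import Fermat.Agent.TwoAdic.Removal.Main
import Fermat.Agent.TwoAdic.Residual.FromCore
import Fermat.Agent.TwoAdic.Selmer.Shrink
import Fermat.Agent.CFT.Reciprocity.Inputs

/-!
# The two-adic modularity theorem

The congruence with a point of the Jacobian at auxiliary level is a hypothesis; its proof lives in a
separate file.
-/

set_option autoImplicit false

noncomputable section

namespace Fermat.Agent.TwoAdic

/-- Two-adic modularity from the statements still to be discharged. -/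
theorem twoAdicModularity_of_inputs
    (hcong : CongruenceInput) : Top.TwoAdicModularityInput Top.IsTwoAdicGood :=
  twoAdicModularity_of_remaining
    (selmerShrink_of_hilbert CFT.Reciprocity.hilbertSingleInput)
    (Residual.residualInput_of_core CFT.Reciprocity.reciprocityCore) residualLevelInput hcong Removal.removalInput limitInput

end Fermat.Agent.TwoAdic
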